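/-
S45, project CARAYOL-K, block K (architect helper65): SKELETON of the proof of `BpAbsK`.
Every `sorry` below is a leaf; the name of the target file is given in the section header.
The final theorem `bpAbsK_skeleton` is proved from the leaves.
-/
import Mathlib
import Fermat.Agent.S18.Defs
import Fermat.Agent.S18.Chart.Const
import Fermat.Agent.S36.BP.Defs
import Fermat.Agent.S36.BP.Base
import Fermat.Agent.S36.BP.Rad
import Fermat.Agent.S36.BP.Symm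
import Fermat.Agent.S36.BP.Datum
import Fermat.Agent.S45.K.Defs
import Fermat.Agent.S45.K.Symm

set_option autoImplicit false

noncomputable section

namespace Fermat.Agent.S45.K

open Fermat.Agent.S18 Fermat.Agent.S36.BP IntermediateField

variable {K₀ F : Type*} [Field K₀] [Field F] [Algebra K₀ F]
variable {A₀ : ValuationSubring K₀} {q : ℕ} {x : F} {κ : Type*} {V : κ → ValuationSubring F}
  {ϖ : κ → F} {E : ℕ} {Eα Eβ : Subfield F} {Nα Nβ N₀ : F →* F}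

/-! ### K1 = `S45/K/Port/Basic.lean` (port of `S36/BP/{Loc,LocQep,LocalRoot,Datum}.lean`) -/

theorem ModelK.isPt (M : ModelK A₀ q x V ϖ E Eα Eβ Nα Nβ N₀) (𝔫 : Ideal (chart A₀.toSubring x))
    [𝔫.IsMaximal] (h𝔫 : (q : chart A₀.toSubring x) ∈ 𝔫) :
    IsPt A₀ (locSub (chart A₀.toSubring x) 𝔫) := sorry

theorem ModelK.qep_loc [Finite κ] (M : ModelK A₀ q x V ϖ E Eα Eβ Nα Nβ N₀)
    (𝔫 : Ideal (chart A₀.toSubring x))
    [𝔫.IsMaximal] (h𝔫 : (q : chart A₀.toSubring x) ∈ 𝔫) (y : F)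
    (h1 : (q : F) * y ∈ locSub (chart A₀.toSubring x) 𝔫)
    (h2 : ∀ c, Through (locSub (chart A₀.toSubring x) 𝔫) (V c) → y ∈ V c) :
    y ∈ locSub (chart A₀.toSubring x) 𝔫 := sorry

theorem ModelK.exists_local_root [Finite κ] (M : ModelK A₀ q x V ϖ E Eα Eβ Nα Nβ N₀)
    (𝔫 : Ideal (chart A₀.toSubring x)) [𝔫.IsMaximal] (h𝔫 : (q : chart A₀.toSubring x) ∈ 𝔫)
    {n : ℕ} {u : F} (hu : ∀ c, (V c).valuation u = 1) (hd : HorDiv K₀ n u) :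
    ∃ g : F, RUnit (locSub (chart A₀.toSubring x) 𝔫) (g ^ n * u) := sorry

theorem trivDatumK_of_single {R : Subring F} (hR : IsPt A₀ R) {c₀ : κ}
    (hA : ∀ c, c ≠ c₀ → Away R (V c)) {n : ℕ} (hn : n ≠ 0) {u : F} {lam : κ → F}
    (hlam : ∀ c, (V c).valuation (lam c) = 1)
    (hlu : ∀ c, (V c).valuation (lam c ^ n * u - 1) < 1) {g₀ : F} (hg₀ : RUnit R (g₀ ^ n * u)) :
    TrivDatumK V R n u lam := sorry

/-! ### K2 = `S45/K/Port/Inj.lean` (port of `S36/BP/Inj.lean`, `S36/BP/Inj/{Charts,Cover,Tors,Loc}`) -/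

theorem ModelK.inj_multi [Finite κ] (M : ModelK A₀ q x V ϖ E Eα Eβ Nα Nβ N₀) {n : ℕ}
    (hn : ¬ q ∣ n) {u : F}
    {lam : κ → F} (hlam : ∀ c, (V c).valuation (lam c) = 1)
    (hlu : ∀ c, (V c).valuation (lam c ^ n * u - 1) < 1)
    (h₁ : ∀ (𝔫 : Ideal (chart A₀.toSubring x)) [𝔫.IsMaximal], (q : chart A₀.toSubring x) ∈ 𝔫 →
      TrivDatumK V (locSub (chart A₀.toSubring x) 𝔫) n u lam)
    (h₂ : ∀ (𝔫 : Ideal (chart A₀.toSubring x⁻¹)) [𝔫.IsMaximal],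
      (q : chart A₀.toSubring x⁻¹) ∈ 𝔫 →
      TrivDatumK V (locSub (chart A₀.toSubring x⁻¹) 𝔫) n u lam) :
    ∃ s : F, s ≠ 0 ∧ s ^ n * u ∈ chart A₀.toSubring x ∧ s ^ n * u ∈ chart A₀.toSubring x⁻¹ := sorry

/-! ### K3 = `S45/K/Frob.lean`: injectivity of Frobenius -/

theorem cg_of_pow_prime {W : ValuationSubring F} (hq : q.Prime) (hqW : W.valuation (q : F) < 1)
    {a b : F} (ha : W.valuation a ≤ 1) (hb : W.valuation b ≤ 1) (h : Cg W (a ^ q) (b ^ q)) :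
    Cg W a b := sorry

theorem cr_of_pow_prime {R : Subring F} (hR : IsPt A₀ R) (hq : q.Prime) (hqR : (q : F) ∈ rad R)
    {a b : F} (ha : a ∈ R) (hb : b ∈ R) (h : Cr R (a ^ q) (b ^ q)) : Cr R a b := sorry

theorem Rad.of_norm_eq_one {N : F →* F} {W : ValuationSubring F} (H : Rad q N W) (hq : q.Prime)
    (hqW : W.valuation (q : F) < 1) {y : F} (hy : N y = 1) :
    W.valuation y = 1 ∧ W.valuation (y - 1) < 1 := sorry

/-! ### K4 = `S45/K/Norm.lean`: normal form -/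

/-- the two constants can be taken equal. -/
theorem ModelK.exists_same_const (M : ModelK A₀ q x V ϖ E Eα Eβ Nα Nβ N₀) {n : ℕ}
    (hn : ¬ q ∣ n) {u : F} (hu : u ≠ 0)
    (hα : IsConstPow K₀ Eα n (Nα u)) (hβ : IsConstPow K₀ Eβ n (Nβ u)) :
    ∃ (c : K₀) (wa wb : F), c ≠ 0 ∧ wa ≠ 0 ∧ wb ≠ 0 ∧ wa ∈ Eα ∧ wb ∈ Eβ ∧
      Nα u = algebraMap K₀ F c * wa ^ n ∧ Nβ u = algebraMap K₀ F c * wb ^ n := sorry

theorem ModelK.exists_normal_form [Finite κ] (M : ModelK A₀ q x V ϖ E Eα Eβ Nα Nβ N₀) {n : ℕ}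
    (hn : ¬ q ∣ n) {u : F} (hu : u ≠ 0)
    (hα : IsConstPow K₀ Eα n (Nα u)) (hβ : IsConstPow K₀ Eβ n (Nβ u)) :
    ∃ (c : K₀) (h la lb : F), c ≠ 0 ∧ h ≠ 0 ∧ la ≠ 0 ∧ lb ≠ 0 ∧
      Nα (la ^ n * (u ^ q * algebraMap K₀ F c * h ^ n)) = 1 ∧
      Nβ (lb ^ n * (u ^ q * algebraMap K₀ F c * h ^ n)) = 1 ∧
      (∀ k, Rad q Nα (V k) → (V k).valuation la = 1) ∧
      (∀ k, ¬ Rad q Nα (V k) → (V k).valuation lb = 1) := sorry

/-- the tie constant. -/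
theorem ModelK.exists_eta (M : ModelK A₀ q x V ϖ E Eα Eβ Nα Nβ N₀) {n : ℕ}
    (hn : ¬ q ∣ n) {u la lb : F} (hla : la ≠ 0) (hlb : lb ≠ 0)
    (hNa : Nα (la ^ n * u) = 1) (hNb : Nβ (lb ^ n * u) = 1) :
    ∃ η : K₀, η ^ n = 1 ∧ N₀ (la / lb) = algebraMap K₀ F η ^ (q * q) := sorry

/-! ### K5 = `S45/K/Cross.lean`: the crossing points -/

theorem cross_half {R : Subring F} (hR : IsPt A₀ R) (hq : q.Prime) (hqR : (q : F) ∈ rad R)
    {N N₀ : F →* F} {E' : Subfield F} (hmem : ∀ y, N y ∈ E')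
    (htie : ∀ y, N₀ (N y) = N₀ y ^ q) (hone : ∀ y, N y = 1 → N₀ y = 1)
    {W₁ : ValuationSubring F} (hW₁ : ∀ r ∈ R, r ∈ W₁)
    (hres : ∀ y ∈ E', W₁.valuation y = 1 → W₁.valuation (N₀ y - y ^ (q * q)) < 1)
    (hU : ∀ ε, RUnit R ε → RUnit R (N ε)) (hU₀ : ∀ ε, RUnit R ε → RUnit R (N₀ ε))
    {n : ℕ} (hn0 : n ≠ 0) {u l g : F} (hl0 : l ≠ 0) (hN : N (l ^ n * u) = 1)
    (hg : RUnit R (g ^ n * u))
    {W : ValuationSubring F} (hW : ∀ r ∈ R, r ∈ W) (hrad : Rad q N W)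
    (hWl : W.valuation (g / l) = 1) {r : F} (hr : r ∈ R) (hc : Cg W (g / l) r) :
    Cr R (N₀ (g / l)) (r ^ (q * q)) := sorry

theorem ModelK.trivDatumK_of_cross (M : ModelK A₀ q x V ϖ E Eα Eβ Nα Nβ N₀) {n : ℕ}
    (hn : ¬ q ∣ n) {u la lb : F} {η : K₀} (hla : la ≠ 0) (hlb : lb ≠ 0) (hη : η ^ n = 1)
    (hNa : Nα (la ^ n * u) = 1) (hNb : Nβ (lb ^ n * u) = 1)
    (hH : N₀ (la / lb) = algebraMap K₀ F η ^ (q * q))
    {lam : κ → F} (hlam : ∀ c, (V c).valuation (lam c) = 1)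
    (hlu : ∀ c, (V c).valuation (lam c ^ n * u - 1) < 1)
    (hfam : ∀ c, (Rad q Nα (V c) ∧ lam c = la) ∨
      (Rad q Nβ (V c) ∧ lam c = lb * algebraMap K₀ F η))
    {R : Subring F} (hR : IsPt A₀ R) (hT : ∀ c, Through R (V c))
    (hUα : ∀ ε : F, RUnit R ε → RUnit R (Nα ε)) (hUβ : ∀ ε : F, RUnit R ε → RUnit R (Nβ ε))
    (hU₀ : ∀ ε : F, RUnit R ε → RUnit R (N₀ ε)) {g : F} (hg : RUnit R (g ^ n * u)) :
    TrivDatumK V R n u lam := sorry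

/-! ### K6 = `S45/K/Main.lean`: assembly -/

/-- the local step, at one closed point of one chart. -/
theorem ModelK.triv_point [Finite κ] (M : ModelK A₀ q x V ϖ E Eα Eβ Nα Nβ N₀) {n : ℕ}
    (hn : ¬ q ∣ n) {u la lb : F} {η : K₀} (hla : la ≠ 0) (hlb : lb ≠ 0) (hη : η ^ n = 1)
    (hNa : Nα (la ^ n * u) = 1) (hNb : Nβ (lb ^ n * u) = 1)
    (hH : N₀ (la / lb) = algebraMap K₀ F η ^ (q * q))
    (hu : ∀ c, (V c).valuation u = 1) (hd : HorDiv K₀ n u)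
    {lam : κ → F} (hlam : ∀ c, (V c).valuation (lam c) = 1)
    (hlu : ∀ c, (V c).valuation (lam c ^ n * u - 1) < 1)
    (hfam : ∀ c, (Rad q Nα (V c) ∧ lam c = la) ∨
      (Rad q Nβ (V c) ∧ lam c = lb * algebraMap K₀ F η))
    (𝔫 : Ideal (chart A₀.toSubring x)) [𝔫.IsMaximal] (h𝔫 : (q : chart A₀.toSubring x) ∈ 𝔫) :
    TrivDatumK V (locSub (chart A₀.toSubring x) 𝔫) n u lam := by
  have hn0 : n ≠ 0 := fun h => hn (h ▸ dvd_zero q)
  have hpt := M.isPt 𝔫 h𝔫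
  have hP := M.pts₁ 𝔫 h𝔫
  obtain ⟨g₀, hg₀⟩ := M.exists_local_root 𝔫 h𝔫 hu hd
  rcases hP.cross with ⟨c₀, hA⟩ | ⟨hT, hUα, hUβ, hU₀⟩
  · exact trivDatumK_of_single hpt hA hn0 hlam hlu hg₀
  · exact M.trivDatumK_of_cross hn hla hlb hη hNa hNb hH hlam hlu hfam hpt hT hUα hUβ hU₀ hg₀

theorem ModelK.val_q_lt_one (M : ModelK A₀ q x V ϖ E Eα Eβ Nα Nβ N₀) (c : κ) :
    (V c).valuation (q : F) < 1 := by
  obtain ⟨e, he1, -, he⟩ := M.ram c
  rw [← he]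
  exact pow_lt_one₀ zero_le (valuation_lt_one_of_isUnif (M.unif c)) (by omega)

/-- **The abstract core.** -/
theorem ModelK.bp_abs [Finite κ] (M : ModelK A₀ q x V ϖ E Eα Eβ Nα Nβ N₀) {n : ℕ}
    (hn : ¬ q ∣ n) {u : F} (hu : u ≠ 0) (hd : HorDiv K₀ n u)
    (hα : IsConstPow K₀ Eα n (Nα u)) (hβ : IsConstPow K₀ Eβ n (Nβ u)) :
    ∃ s : F, s ≠ 0 ∧ IsAlgebraic K₀ (s ^ n * u ^ q) := by
  classical
  have hn0 : n ≠ 0 := fun h => hn (h ▸ dvd_zero q)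
  have hq := M.base.prime
  obtain ⟨c, h, la, lb, hc0, hh0, hla, hlb, hNa, hNb, hva, hvb⟩ := M.exists_normal_form hn hu hα hβ
  set u₂ : F := u ^ q * algebraMap K₀ F c * h ^ n with hu₂
  have hd₂ : HorDiv K₀ n u₂ := ((hd.pow q).mul_const hc0).mul_pow hh0
  obtain ⟨η, hη, hH⟩ := M.exists_eta hn hla hlb hNa hNb
  have hηF : algebraMap K₀ F η ^ n = 1 := by rw [← map_pow, hη, map_one]
  set lam : κ → F := fun k => if Rad q Nα (V k) then la else lb * algebraMap K₀ F η with hlamdef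
  have hfam : ∀ k, (Rad q Nα (V k) ∧ lam k = la) ∨
      (Rad q Nβ (V k) ∧ lam k = lb * algebraMap K₀ F η) := by
    intro k
    by_cases hk : Rad q Nα (V k)
    · exact Or.inl ⟨hk, by simp only [hlamdef, if_pos hk]⟩
    · exact Or.inr ⟨(M.rad k).resolve_left hk, by simp only [hlamdef, if_neg hk]⟩
  have hlam : ∀ k, (V k).valuation (lam k) = 1 := by
    intro k
    by_cases hk : Rad q Nα (V k)
    · simp only [hlamdef, if_pos hk]
      exact hva k hk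
    · simp only [hlamdef, if_neg hk]
      rw [map_mul, hvb k hk, one_mul]
      exact valuation_eq_one_of_pow_eq_one _ hn0 hηF
  have hlu : ∀ k, (V k).valuation (lam k ^ n * u₂ - 1) < 1 := by
    intro k
    rcases hfam k with ⟨hk, e⟩ | ⟨hk, e⟩
    · rw [e]
      exact (hk.of_norm_eq_one hq (M.val_q_lt_one k) hNa).2
    · rw [e, mul_pow, hηF, mul_one]
      exact (hk.of_norm_eq_one hq (M.val_q_lt_one k) hNb).2
  have hu₂1 : ∀ k, (V k).valuation u₂ = 1 := by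
    intro k
    have h1 : (V k).valuation (lam k ^ n * u₂) = 1 := by
      have := Valuation.map_add_eq_of_lt_right (V k).valuation
        (x := lam k ^ n * u₂ - 1) (y := 1) (by rw [map_one]; exact hlu k)
      rwa [sub_add_cancel, map_one] at this
    rwa [map_mul, map_pow, hlam k, one_pow, one_mul] at h1
  obtain ⟨s, hs0, hs₁, hs₂⟩ := M.inj_multi hn hlam hlu
    (fun 𝔫 _ h𝔫 => M.triv_point hn hla hlb hη hNa hNb hH hu₂1 hd₂ hlam hlu hfam 𝔫 h𝔫)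
    (fun 𝔫 _ h𝔫 => M.inv.triv_point hn hla hlb hη hNa hNb hH hu₂1 hd₂ hlam hlu hfam 𝔫 h𝔫)
  have halg : IsAlgebraic K₀ (s ^ n * u₂) :=
    const_abs M.transc (chart_mono le_top x hs₁) (chart_mono le_top x⁻¹ hs₂)
  refine ⟨s * h, mul_ne_zero hs0 hh0, ?_⟩
  have hcF : algebraMap K₀ F c ≠ 0 := by rwa [Ne, map_eq_zero]
  have key : (s * h) ^ n * u ^ q = s ^ n * u₂ * (algebraMap K₀ F c)⁻¹ := by
    rw [eq_mul_inv_iff_mul_eq₀ hcF, hu₂]
    ring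
  rw [key]
  exact halg.mul (isAlgebraic_algebraMap _).inv

theorem bpAbsK_skeleton : BpAbsK := by
  intro F _ K₀ _ _ A₀ q x κ _ V ϖ E Eα Eβ Nα Nβ N₀ M n hn u hu hd hα hβ
  exact M.bp_abs hn hu hd hα hβ

end Fermat.Agent.S45.K

end
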